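/-
S35 cell [SMO] (ii), part 1 (helper16): linear algebra and commutative algebra, Mathlib only.

* `smos_trace_eq_neg_nextCoeff` : `tr f = - nextCoeff (charpoly f)`;
* `smos_trace_pow`              : in dimension 2, `tr (f ^ n)` is a function of `charpoly f`;
* `smos_trace_pow_congr`        : equal characteristic polynomials (dimension 2, two different
                                  spaces) give equal traces of all powers;
* `smos_trace_of_charpoly`      : `charpoly f = X² - C t X + C d` gives `tr f = t`;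
* `smos_exists_maximal`         : for `α ≠ 0` in `ℤ̄ = integralClosure ℤ ℂ` and `ℓ₀` there are a
                                  prime `p ≠ ℓ₀` and a maximal ideal `𝔪 ∋ p` of `ℤ̄` with `α ∉ 𝔪`;
* `smos_exists_place`           : above every prime there is a valuation subring of `ℚ̄`.
Prefix `smos_`.
-/
import Mathlib
import Fermat.Prelude.Def_FLTPrelim_Ramification

set_option autoImplicit false

namespace Fermat.Agent.S35

open Polynomial

section Trace

variable {k : Type*} [Field k] {V : Type*} [AddCommGroup V] [Module k V] [FiniteDimensional k V]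

theorem smos_trace_eq_neg_nextCoeff (f : Module.End k V) :
    LinearMap.trace k V f = - f.charpoly.nextCoeff := by
  rw [LinearMap.charpoly_def, ← Matrix.trace_eq_neg_charpoly_nextCoeff,
    LinearMap.trace_eq_matrix_trace k (Module.Free.chooseBasis k V) f]

theorem smos_trace_pow (hV : Module.finrank k V = 2) (f : Module.End k V) (n : ℕ) :
    LinearMap.trace k V (f ^ n) =
      2 * (X ^ n %ₘ f.charpoly).coeff 0 -
        (X ^ n %ₘ f.charpoly).coeff 1 * f.charpoly.nextCoeff := by
  set r := X ^ n %ₘ f.charpoly with hr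
  have hdeg : r.degree ≤ 1 := by
    have h1 : r.degree < f.charpoly.degree := degree_modByMonic_lt _ f.charpoly_monic
    have h2 : f.charpoly.degree = 2 := by
      rw [degree_eq_natDegree f.charpoly_monic.ne_zero, LinearMap.charpoly_natDegree, hV]
      rfl
    rw [h2] at h1
    have h3 : r.degree < ((1 : ℕ) : WithBot ℕ) + 1 := by
      have : ((1 : ℕ) : WithBot ℕ) + 1 = 2 := by norm_num
      rw [this]; exact h1
    by_cases hr0 : r = 0
    · rw [hr0, degree_zero]; exact bot_le
    · rw [degree_eq_natDegree hr0] at h1 ⊢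
      have : r.natDegree < 2 := by exact_mod_cast h1
      exact_mod_cast Nat.lt_succ_iff.mp this
  have hr2 : r = C (r.coeff 1) * X + C (r.coeff 0) := eq_X_add_C_of_degree_le_one hdeg
  have hpow : f ^ n = r.coeff 1 • f + r.coeff 0 • (1 : Module.End k V) := by
    rw [LinearMap.pow_eq_aeval_mod_charpoly f n, ← hr, hr2]
    simp only [map_add, map_mul, aeval_C, aeval_X, coeff_add, coeff_C_mul, coeff_X_one, mul_one,
      coeff_C_zero, coeff_X_zero, mul_zero, coeff_C_succ, add_zero, zero_add,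
      Algebra.algebraMap_eq_smul_one, smul_mul_assoc, one_mul]
  rw [hpow, map_add, map_smul, map_smul, LinearMap.trace_one, hV,
    smos_trace_eq_neg_nextCoeff f, smul_eq_mul, smul_eq_mul]
  push_cast
  ring

theorem smos_trace_pow_congr {V' : Type*} [AddCommGroup V'] [Module k V'] [FiniteDimensional k V']
    (hV : Module.finrank k V = 2) (hV' : Module.finrank k V' = 2)
    (f : Module.End k V) (f' : Module.End k V') (h : f.charpoly = f'.charpoly) (n : ℕ) :
    LinearMap.trace k V (f ^ n) = LinearMap.trace k V' (f' ^ n) := by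
  rw [smos_trace_pow hV f n, smos_trace_pow hV' f' n, h]

theorem smos_trace_of_charpoly (f : Module.End k V) (t d : k)
    (h : f.charpoly = X ^ 2 - C t * X + C d) : LinearMap.trace k V f = t := by
  rw [smos_trace_eq_neg_nextCoeff, h]
  have hdeg : (X ^ 2 - C t * X + C d : k[X]).natDegree = 2 := by
    have h1 : (X ^ 2 - C t * X + C d : k[X]) = X ^ 2 + (C (-t) * X + C d) := by
      rw [C_neg]; ring
    rw [h1]
    have h2 : (C (-t) * X + C d : k[X]).degree < ((X : k[X]) ^ 2).degree := by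
      rw [degree_X_pow]
      exact lt_of_le_of_lt (degree_linear_le) (by norm_num)
    rw [natDegree_add_eq_left_of_degree_lt h2, natDegree_X_pow]
  rw [nextCoeff, hdeg]
  simp only [OfNat.ofNat_ne_zero, ↓reduceIte, Nat.add_one_sub_one, coeff_add, coeff_sub,
    coeff_X_pow, OfNat.one_ne_ofNat, coeff_C_mul, coeff_X_one, mul_one, zero_sub, coeff_C_succ,
    add_zero, neg_neg]

end Trace

section Ideal

local notation "Zbar" => integralClosure ℤ ℂ

/-- a nonzero algebraic integer divides a nonzero rational integer -/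
theorem smos_dvd_int (α : Zbar) (hα : α ≠ 0) :
    ∃ (c : ℤ) (β : Zbar), c ≠ 0 ∧ (c : Zbar) = β * α := by
  have hint : IsIntegral ℤ α := by
    have h1 : IsIntegral ℤ (α : ℂ) := α.2
    exact (isIntegral_algebraMap_iff (B := ℂ) Subtype.val_injective).1 h1
  have key : ∀ n : ℕ, ∀ P : ℤ[X], P.natDegree = n → P ≠ 0 → aeval α P = 0 →
      ∃ (c : ℤ) (β : Zbar), c ≠ 0 ∧ (c : Zbar) = β * α := by
    intro n
    induction n using Nat.strong_induction_on with
    | _ n ih =>
      intro P hn hP0 hPα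
      by_cases hc : P.coeff 0 = 0
      · have h2 : P = P.divX * X := by
          have h3 := (divX_mul_X_add P).symm
          rw [hc, C_0, add_zero] at h3
          exact h3
        have hd0 : P.divX ≠ 0 := fun h => hP0 (by rw [h2, h, zero_mul])
        have hdα : aeval α P.divX = 0 := by
          rw [h2, map_mul, aeval_X] at hPα
          exact (mul_eq_zero.mp hPα).resolve_right hα
        have hlt : P.divX.natDegree < n := by
          rw [← hn]
          exact natDegree_lt_natDegree hd0 (degree_divX_lt hP0)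
        exact ih _ hlt P.divX rfl hd0 hdα
      · refine ⟨P.coeff 0, -(aeval α P.divX), hc, ?_⟩
        have h2 : P = P.divX * X + C (P.coeff 0) := (divX_mul_X_add P).symm
        rw [h2, map_add, map_mul, aeval_X, aeval_C] at hPα
        have h3 : (algebraMap ℤ Zbar) (P.coeff 0) = ((P.coeff 0 : ℤ) : Zbar) := by simp
        rw [h3] at hPα
        linear_combination hPα
  obtain ⟨P, hPmonic, hPα⟩ := hint
  exact key _ P rfl hPmonic.ne_zero (by rw [aeval_def]; exact hPα)

/-- for `α ≠ 0` in `ℤ̄` and any `ℓ₀`: a prime `p ≠ ℓ₀` and a maximal ideal of `ℤ̄` over `p` not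
containing `α`. -/
theorem smos_exists_maximal (α : Zbar) (hα : α ≠ 0) (ℓ₀ : ℕ) :
    ∃ (p : ℕ) (𝔪 : Ideal Zbar), p.Prime ∧ p ≠ ℓ₀ ∧ 𝔪.IsMaximal ∧ (p : Zbar) ∈ 𝔪 ∧ α ∉ 𝔪 := by
  obtain ⟨c, β, hc0, hdiv⟩ := smos_dvd_int α hα
  obtain ⟨p, hpge, hp⟩ := Nat.exists_infinite_primes (max c.natAbs ℓ₀ + 1)
  have hpc : c.natAbs < p := lt_of_lt_of_le (Nat.lt_succ_of_le (le_max_left _ _)) hpge
  have hpl : ℓ₀ < p := lt_of_lt_of_le (Nat.lt_succ_of_le (le_max_right _ _)) hpge
  have hndvd : ¬ (p : ℤ) ∣ c := by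
    intro hd
    have h1 : p ∣ c.natAbs := Int.natCast_dvd.mp hd
    have h2 : 0 < c.natAbs := Int.natAbs_pos.mpr hc0
    exact absurd (Nat.le_of_dvd h2 h1) (not_le.mpr hpc)
  have hcop : IsCoprime (p : ℤ) c :=
    (Nat.prime_iff_prime_int.mp hp).irreducible.coprime_iff_not_dvd.mpr hndvd
  have hspanmax : (Ideal.span {(p : ℤ)}).IsMaximal :=
    PrincipalIdealRing.isMaximal_of_irreducible (Nat.prime_iff_prime_int.mp hp).irreducible
  have hZint : Algebra.IsIntegral ℤ Zbar := by
    refine ⟨fun b => ?_⟩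
    have hb : IsIntegral ℤ (b : ℂ) := b.2
    exact (isIntegral_algebraMap_iff (B := ℂ) Subtype.val_injective).1 hb
  obtain ⟨𝔪, hmax, hover⟩ :=
    Ideal.exists_maximal_ideal_liesOver_of_isIntegral (S := Zbar) (Ideal.span {(p : ℤ)})
  have hp𝔪 : (p : Zbar) ∈ 𝔪 := by
    have h1 : (p : ℤ) ∈ 𝔪.under ℤ := by
      rw [← hover.over]; exact Ideal.subset_span rfl
    have h2 := Ideal.mem_comap.mp h1
    simpa using h2
  refine ⟨p, 𝔪, hp, fun h => (lt_irrefl _ (h ▸ hpl)), hmax, hp𝔪, ?_⟩
  intro hα𝔪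
  have hc𝔪 : (c : Zbar) ∈ 𝔪 := by
    rw [hdiv]; exact 𝔪.mul_mem_left _ hα𝔪
  obtain ⟨u, v, huv⟩ := hcop
  have h1 : (1 : Zbar) ∈ 𝔪 := by
    have h2 : (1 : Zbar) = (u : Zbar) * (p : Zbar) + (v : Zbar) * (c : Zbar) := by
      have := congrArg (fun z : ℤ => (z : Zbar)) huv
      simp only [Int.cast_add, Int.cast_mul, Int.cast_natCast, Int.cast_one] at this
      exact this.symm
    rw [h2]
    exact 𝔪.add_mem (𝔪.mul_mem_left _ hp𝔪) (𝔪.mul_mem_left _ hc𝔪)
  exact hmax.ne_top ((Ideal.eq_top_iff_one 𝔪).mpr h1)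

end Ideal

section Place

local notation "Qbar" => AlgebraicClosure ℚ

/-- above every prime there is a valuation subring of `ℚ̄` -/
theorem smos_exists_place (ℓ : ℕ) (hℓ : ℓ.Prime) :
    ∃ A : ValuationSubring Qbar, A.LiesOverPrime ℓ := by
  let Z : Subring Qbar := (algebraMap ℤ Qbar).range
  let l : Z := ⟨(ℓ : Qbar), ⟨(ℓ : ℤ), by simp⟩⟩
  have hne : Ideal.span ({l} : Set Z) ≠ ⊤ := by
    intro h
    rw [Ideal.span_singleton_eq_top] at h
    obtain ⟨⟨b, hb⟩, hbl⟩ := h.exists_right_inv
    obtain ⟨n, rfl⟩ := hb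
    have h1 : ((ℓ : ℤ) * n : ℤ) = 1 := by
      have h2 : (algebraMap ℤ Qbar) ((ℓ : ℤ) * n) = (algebraMap ℤ Qbar) 1 := by
        rw [map_mul, map_one]
        have := congrArg Subtype.val hbl
        simpa [l] using this
      exact (algebraMap ℤ Qbar).injective_int h2
    have h3 : (ℓ : ℤ) ∣ 1 := ⟨n, h1.symm⟩
    have h4 : ℓ ∣ 1 := by exact_mod_cast h3
    exact hℓ.one_lt.ne' (Nat.dvd_one.1 h4)
  obtain ⟨B, -, hB⟩ := Ideal.image_subset_nonunits_valuationSubring (Ideal.span ({l} : Set Z)) hne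
  exact ⟨B, hB ⟨l, Ideal.subset_span rfl, rfl⟩⟩

end Place

end Fermat.Agent.S35
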