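/-
S35 cell [SMO] (ii), part 2 (helper16): STRONG MULTIPLICITY ONE for the good Hecke eigenvalues of
two normalized eigenforms, from the statement of S29 (mod-`p` representations) + weak Chebotarev
(`wc_main`) + existence of Frobenius elements.  (Route: helper3's remark #2141 — mod-`p`
representations suffice, no `λ`-adic coefficient ring is needed.)

* `smos_S29Stmt`      : the statement of S29, verbatim;
* `smos_trace_eq`     : two residual representations whose Frobenius characteristic polynomials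
                        agree outside a finite set of primes have the same trace function;
* `smos_key`          : for `φ : ℤ̄ → k` (`char k = p ≠ ℓ₀`): `φ (a_ℓ₀ g) = φ (a_ℓ₀ g')`;
* `smos_strong_of`    : `smos_strong` with S29 and the existence of Frobenius elements as hypotheses.
Prefix `smos_`.
-/
import Mathlib
import Fermat.Prelude.Def_GaloisRep_Residual
import Fermat.Prelude.Def_FLTPrelim_Ramification
import Fermat.Agent.WC.Final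
import Fermat.Agent.S35.SMO.StrongLin

set_option autoImplicit false
set_option linter.style.haveILetI false

namespace Fermat.Agent.S35

open Polynomial ModularFormClass CongruenceSubgroup

local notation "Qbar" => AlgebraicClosure ℚ
local notation "GQ" => (AlgebraicClosure ℚ ≃ₐ[ℚ] AlgebraicClosure ℚ)
local notation "Zbar" => integralClosure ℤ ℂ

/-- the statement of S29, verbatim -/
def smos_S29Stmt : Prop :=
    ∀ {N : ℕ} {g : CuspForm (CongruenceSubgroup.Gamma0 N) 2} (_hg : g.IsNormalizedEigenform)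
    {p : ℕ} (_hp : p.Prime) {k : Type} [Field k] [CharP k p]
    (φ : integralClosure ℤ ℂ →+* k),
    ∃ ρ : ResidualGaloisRep k, ρ.IsAttachedTo g φ ∧
      ∀ ℓ : ℕ, ℓ.Prime → ¬ ℓ ∣ N * p → ρ.IsUnramifiedAt ℓ

/-- the existence of Frobenius elements (`fex_exists_isFrobeniusAt`), as a statement -/
def smos_FrobStmt : Prop :=
  ∀ ℓ : ℕ, ℓ.Prime → ∀ A : ValuationSubring Qbar, A.LiesOverPrime ℓ →
    ∃ σ : GQ, A.IsFrobeniusAt σ ℓ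

/-- two residual representations whose Frobenius characteristic polynomials agree outside a
finite set of primes have the same trace function (weak Chebotarev). -/
theorem smos_trace_eq {k : Type} [Field k] (ρ₁ ρ₂ : ResidualGaloisRep k) (S' : Finset ℕ)
    (hfr : ∀ ℓ : ℕ, ℓ.Prime → ℓ ∉ S' → ∀ A : ValuationSubring Qbar, A.LiesOverPrime ℓ →
      ∀ φ : GQ, A.IsFrobeniusAt φ ℓ → (ρ₁.ρ φ).charpoly = (ρ₂.ρ φ).charpoly)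
    (σ : GQ) :
    LinearMap.trace k ρ₁.V (ρ₁.ρ σ) = LinearMap.trace k ρ₂.V (ρ₂.ρ σ) := by
  obtain ⟨L₁, hL₁fin, hL₁⟩ := ρ₁.factorsThroughFiniteLevel
  obtain ⟨L₂, hL₂fin, hL₂⟩ := ρ₂.factorsThroughFiniteLevel
  haveI := hL₁fin
  haveI := hL₂fin
  haveI : FiniteDimensional ℚ ↥(L₁ ⊔ L₂) := IntermediateField.finiteDimensional_sup L₁ L₂
  haveI : Algebra.IsAlgebraic ℚ Qbar := AlgebraicClosure.isAlgebraic ℚ
  haveI : IsAlgClosure ℚ Qbar := ⟨inferInstance, inferInstance⟩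
  haveI : Normal ℚ Qbar := IsAlgClosure.normal ℚ Qbar
  let K : IntermediateField ℚ Qbar := IntermediateField.normalClosure ℚ ↥(L₁ ⊔ L₂) Qbar
  haveI hKfin : FiniteDimensional ℚ K := normalClosure.is_finiteDimensional ℚ _ Qbar
  haveI hKnormal : Normal ℚ K := normalClosure.normal ℚ _ Qbar
  have hLK : L₁ ⊔ L₂ ≤ K := IntermediateField.le_normalClosure _
  obtain ⟨ℓ, A, φ, n, hℓ, hℓS, hA, hφ, hagree⟩ := Fermat.Agent.WC.wc_main K S' σ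
  -- `σ⁻¹ φ^n` fixes `K`
  have hfix : ∀ x ∈ K, (σ⁻¹ * φ ^ n) x = x := by
    intro x hx
    rw [AlgEquiv.mul_apply, hagree x hx]
    exact σ.symm_apply_apply x
  have h1 : ρ₁.ρ (σ⁻¹ * φ ^ n) = 1 :=
    hL₁ _ fun x hx => hfix x (hLK (le_sup_left (a := L₁) (b := L₂) hx))
  have h2 : ρ₂.ρ (σ⁻¹ * φ ^ n) = 1 :=
    hL₂ _ fun x hx => hfix x (hLK (le_sup_right (a := L₁) (b := L₂) hx))
  have e1 : ρ₁.ρ σ = ρ₁.ρ φ ^ n := by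
    have : ρ₁.ρ (σ * (σ⁻¹ * φ ^ n)) = ρ₁.ρ σ := by rw [map_mul, h1, mul_one]
    rw [← this, mul_inv_cancel_left, map_pow]
  have e2 : ρ₂.ρ σ = ρ₂.ρ φ ^ n := by
    have : ρ₂.ρ (σ * (σ⁻¹ * φ ^ n)) = ρ₂.ρ σ := by rw [map_mul, h2, mul_one]
    rw [← this, mul_inv_cancel_left, map_pow]
  rw [e1, e2]
  exact smos_trace_pow_congr ρ₁.finrank_eq ρ₂.finrank_eq _ _ (hfr ℓ hℓ hℓS A hA φ hφ) n

/-- the key congruence: for `φ : ℤ̄ → k`, `char k = p ≠ ℓ₀`, the images of `a_ℓ₀(g)` and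
`a_ℓ₀(g')` agree. -/
theorem smos_key (h29 : smos_S29Stmt) (hfrob : smos_FrobStmt)
    {M M' : ℕ} {g : CuspForm (Gamma0 M) 2} {g' : CuspForm (Gamma0 M') 2}
    (hM0 : M ≠ 0) (hM'0 : M' ≠ 0)
    (hg : g.IsNormalizedEigenform) (hg' : g'.IsNormalizedEigenform) (S : Finset ℕ)
    (h : ∀ ℓ : ℕ, ℓ.Prime → ℓ ∉ S → qCoeff g ℓ = qCoeff g' ℓ)
    {p : ℕ} (hp : p.Prime) {k : Type} [Field k] [CharP k p] (φ : Zbar →+* k)
    {ℓ₀ : ℕ} (hℓ₀ : ℓ₀.Prime) (hpℓ₀ : p ≠ ℓ₀) (hℓ₀M : ¬ ℓ₀ ∣ M) (hℓ₀M' : ¬ ℓ₀ ∣ M')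
    (a₀ a₀' : Zbar) (ha₀ : (a₀ : ℂ) = qCoeff g ℓ₀) (ha₀' : (a₀' : ℂ) = qCoeff g' ℓ₀) :
    φ a₀ = φ a₀' := by
  obtain ⟨ρ₁, hatt₁, -⟩ := h29 hg hp φ
  obtain ⟨ρ₂, hatt₂, -⟩ := h29 hg' hp φ
  have hcast : ∀ ℓ : ℕ, ℓ.Prime → ℓ ≠ p → (ℓ : k) ≠ 0 := by
    intro ℓ hℓ hℓp h0
    rw [CharP.cast_eq_zero_iff k p ℓ] at h0
    exact hℓp ((Nat.prime_dvd_prime_iff_eq hp hℓ).mp h0).symm
  set S' : Finset ℕ := S ∪ {p} ∪ M.primeFactors ∪ M'.primeFactors with hS'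
  have htr := smos_trace_eq ρ₁ ρ₂ S' (by
    intro ℓ hℓ hℓS' A hA σ hσ
    have hℓS : ℓ ∉ S := fun hh => hℓS' (by simp [hS', hh])
    have hℓp : ℓ ≠ p := fun hh => hℓS' (by simp [hS', hh])
    have hℓM : ¬ ℓ ∣ M := fun hh => hℓS' (by
      have : ℓ ∈ M.primeFactors := Nat.mem_primeFactors.mpr ⟨hℓ, hh, hM0⟩
      simp [hS', this])
    have hℓM' : ¬ ℓ ∣ M' := fun hh => hℓS' (by
      have : ℓ ∈ M'.primeFactors := Nat.mem_primeFactors.mpr ⟨hℓ, hh, hM'0⟩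
      simp [hS', this])
    obtain ⟨a, ha, hc⟩ := hatt₁ ℓ hℓ hℓM (hcast ℓ hℓ hℓp) A hA σ hσ
    obtain ⟨a', ha', hc'⟩ := hatt₂ ℓ hℓ hℓM' (hcast ℓ hℓ hℓp) A hA σ hσ
    have haa' : a = a' := Subtype.ext (by rw [ha, ha', h ℓ hℓ hℓS])
    rw [hc, hc', haa'])
  -- a Frobenius element at `ℓ₀`
  obtain ⟨A₀, hA₀⟩ := smos_exists_place ℓ₀ hℓ₀
  obtain ⟨σ₀, hσ₀⟩ := hfrob ℓ₀ hℓ₀ A₀ hA₀
  obtain ⟨a, ha, hc⟩ := hatt₁ ℓ₀ hℓ₀ hℓ₀M (hcast ℓ₀ hℓ₀ hpℓ₀.symm) A₀ hA₀ σ₀ hσ₀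
  obtain ⟨a', ha', hc'⟩ := hatt₂ ℓ₀ hℓ₀ hℓ₀M' (hcast ℓ₀ hℓ₀ hpℓ₀.symm) A₀ hA₀ σ₀ hσ₀
  have e : a = a₀ := Subtype.ext (by rw [ha, ha₀])
  have e' : a' = a₀' := Subtype.ext (by rw [ha', ha₀'])
  have t1 := smos_trace_of_charpoly (ρ₁.ρ σ₀) _ _ hc
  have t2 := smos_trace_of_charpoly (ρ₂.ρ σ₀) _ _ hc'
  rw [← e, ← e', ← t1, ← t2]
  exact htr σ₀

/-- the `q`-coefficients at good primes of a normalized eigenform are algebraic integers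
(read off from S29). -/
theorem smos_integral (h29 : smos_S29Stmt) (hfrob : smos_FrobStmt)
    {M : ℕ} {g : CuspForm (Gamma0 M) 2} (hg : g.IsNormalizedEigenform)
    {ℓ₀ : ℕ} (hℓ₀ : ℓ₀.Prime) (hℓ₀M : ¬ ℓ₀ ∣ M) :
    ∃ a : Zbar, (a : ℂ) = qCoeff g ℓ₀ := by
  obtain ⟨p, 𝔪, hp, hpℓ₀, hmax, hp𝔪, -⟩ := smos_exists_maximal 1 one_ne_zero ℓ₀
  letI : Field (Zbar ⧸ 𝔪) := Ideal.Quotient.field 𝔪
  haveI : CharP (Zbar ⧸ 𝔪) p := by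
    have h0 : ((p : ℕ) : Zbar ⧸ 𝔪) = 0 := by
      have : (Ideal.Quotient.mk 𝔪) (p : Zbar) = 0 := Ideal.Quotient.eq_zero_iff_mem.mpr hp𝔪
      simpa using this
    exact (CharP.charP_iff_prime_eq_zero hp).mpr h0
  obtain ⟨ρ, hatt, -⟩ := h29 hg hp (Ideal.Quotient.mk 𝔪)
  obtain ⟨A₀, hA₀⟩ := smos_exists_place ℓ₀ hℓ₀
  obtain ⟨σ₀, hσ₀⟩ := hfrob ℓ₀ hℓ₀ A₀ hA₀
  have hcast : (ℓ₀ : Zbar ⧸ 𝔪) ≠ 0 := by
    intro h0
    rw [CharP.cast_eq_zero_iff (Zbar ⧸ 𝔪) p ℓ₀] at h0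
    exact hpℓ₀ ((Nat.prime_dvd_prime_iff_eq hp hℓ₀).mp h0)
  obtain ⟨a, ha, -⟩ := hatt ℓ₀ hℓ₀ hℓ₀M hcast A₀ hA₀ σ₀ hσ₀
  exact ⟨a, ha⟩

/-- **Strong multiplicity one for the good eigenvalues**, with S29 and the existence of Frobenius
elements as hypotheses. -/
theorem smos_strong_of (h29 : smos_S29Stmt) (hfrob : smos_FrobStmt)
    {M M' : ℕ} [NeZero M] [NeZero M'] {g : CuspForm (Gamma0 M) 2} {g' : CuspForm (Gamma0 M') 2}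
    (hg : g.IsNormalizedEigenform) (hg' : g'.IsNormalizedEigenform) (S : Finset ℕ)
    (h : ∀ ℓ : ℕ, ℓ.Prime → ℓ ∉ S → qCoeff g ℓ = qCoeff g' ℓ) :
    ∀ ℓ : ℕ, ℓ.Prime → ¬ ℓ ∣ M → ¬ ℓ ∣ M' → qCoeff g ℓ = qCoeff g' ℓ := by
  intro ℓ₀ hℓ₀ hℓ₀M hℓ₀M'
  obtain ⟨a₀, ha₀⟩ := smos_integral h29 hfrob hg hℓ₀ hℓ₀M
  obtain ⟨a₀', ha₀'⟩ := smos_integral h29 hfrob hg' hℓ₀ hℓ₀M'
  by_contra hne
  have hα : a₀ - a₀' ≠ 0 := by
    intro h0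
    apply hne
    rw [← ha₀, ← ha₀', sub_eq_zero.mp h0]
  obtain ⟨p, 𝔪, hp, hpℓ₀, hmax, hp𝔪, hα𝔪⟩ := smos_exists_maximal (a₀ - a₀') hα ℓ₀
  letI : Field (Zbar ⧸ 𝔪) := Ideal.Quotient.field 𝔪
  haveI : CharP (Zbar ⧸ 𝔪) p := by
    have h0 : ((p : ℕ) : Zbar ⧸ 𝔪) = 0 := by
      have : (Ideal.Quotient.mk 𝔪) (p : Zbar) = 0 := Ideal.Quotient.eq_zero_iff_mem.mpr hp𝔪
      simpa using this
    exact (CharP.charP_iff_prime_eq_zero hp).mpr h0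
  have hkey := smos_key h29 hfrob (NeZero.ne M) (NeZero.ne M') hg hg' S h hp
    (Ideal.Quotient.mk 𝔪) hℓ₀ hpℓ₀ hℓ₀M hℓ₀M' a₀ a₀' ha₀ ha₀'
  apply hα𝔪
  rw [← Ideal.Quotient.eq_zero_iff_mem, map_sub, hkey, sub_self]

end Fermat.Agent.S35
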