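/-
S35 cell [SMO] (ii) (helper16): **STRONG MULTIPLICITY ONE for the good Hecke eigenvalues**.

  `smos_strong` : two normalized eigenforms `g` (level `M`), `g'` (level `M'`) whose `q`-coefficients
  `a_ℓ` agree at all primes `ℓ` outside a finite set `S` have the same `a_ℓ` at EVERY prime
  `ℓ ∤ M`, `ℓ ∤ M'`.

Proof: `S35/SMO/StrongCore.lean` (`smos_strong_of`: mod-`p` representations of S29 for a prime `p`
and a maximal ideal of `ℤ̄` over `p` avoiding `a_ℓ₀(g) - a_ℓ₀(g')`, weak Chebotarev `wc_main`, the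
2×2 trace recursion) with S29 (`Fermat.Agent.S29.result`) and the existence of Frobenius elements
(`fex_exists_isFrobeniusAt`) plugged in.  Prefix `smos_`.
-/
import Fermat.Agent.S35.SMO.StrongCore
import Fermat.Agent.S29
import Fermat.Agent.JT3.ES.FrobExists

set_option autoImplicit false

namespace Fermat.Agent.S35

open ModularFormClass CongruenceSubgroup

/-- S29 in the shape of `smos_S29Stmt` -/
theorem smos_S29 : smos_S29Stmt := fun hg _ hp _ _ _ φ => Fermat.Agent.S29.result hg hp φ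

/-- existence of Frobenius elements in the shape of `smos_FrobStmt` -/
theorem smos_frob : smos_FrobStmt := fun _ hℓ A hA =>
  Fermat.Agent.JT3.fex_exists_isFrobeniusAt hℓ A hA

/-- **Strong multiplicity one for the good eigenvalues.** -/
theorem smos_strong {M M' : ℕ} [NeZero M] [NeZero M'] {g : CuspForm (Gamma0 M) 2}
    {g' : CuspForm (Gamma0 M') 2}
    (hg : g.IsNormalizedEigenform) (hg' : g'.IsNormalizedEigenform) (S : Finset ℕ)
    (h : ∀ ℓ : ℕ, ℓ.Prime → ℓ ∉ S → qCoeff g ℓ = qCoeff g' ℓ) :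
    ∀ ℓ : ℕ, ℓ.Prime → ¬ ℓ ∣ M → ¬ ℓ ∣ M' → qCoeff g ℓ = qCoeff g' ℓ :=
  smos_strong_of smos_S29 smos_frob hg hg' S h

end Fermat.Agent.S35
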